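/-
PROJECT D (S48), part B, block B3, brick E0, the closing link (helper3).

`StableHyp1 M A` (the hypothesis of `Diamond1.diamondRed1_of` produced by brick U) from the seam
`IgusaDeg M` of block B2: helper1's `Bases1.exists_basis_O_igusa` is a family of Gauss-integral
elements whose reductions form a `κ(j̄)`-basis, of cardinality `[ℚ̄(X₁(M)) : ℚ̄(j)]`, and the Gauss
datum `Bases1.gaussDatumIgusa` is `Inputs1.datum₁ (Bases1.hasRep_of_igusa ..)` by definition.

With helper11's `Fibre1.fibreHyp1_of`: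

`diamondRed1 : DiamondExists M → IgusaDeg M → Deg1 M → Seams.DiamondRed1 M`   (R0).
-/
import Mathlib
import Fermat.Agent.S48.B.Red.Bases1
import Fermat.Agent.S48.B.Red.Fibre1
import Fermat.Agent.S48.B.Red.Diamond1

set_option autoImplicit false
set_option linter.unusedSectionVars false
set_option synthInstance.maxHeartbeats 400000

noncomputable section

namespace Fermat.Agent.S48.B.Red.Diamond1.Final

open IntermediateField IsLocalRing
open Fermat.Agent.S48.B.Defs.Model
open Fermat.Agent.S48.B.Red.GaussG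
open Fermat.Agent.S48.B.B1.Seams (jgen1 Deg1 DiamondExists)
open Fermat.Agent.S48.B.Red.Seams (jC IgusaDeg)
open Fermat.Agent.S48.B.Red.Inputs1 (datum₁)
open Fermat.Agent.S48.B.Red.Diamond1 (StableHyp1 stableHyp1_of_basis diamondRed1_of)

local notation "Kb" => AlgebraicClosure ℚ

variable {M : ℕ} [NeZero M] {A : ValuationSubring Kb}

/-- helper1's Gauss datum is the canonical one of helper11's `Inputs1` -/
theorem gaussDatumIgusa_eq_datum₁ (h : IgusaDeg M) {ℓ : ℕ} (hℓ : ℓ.Prime) (hℓM : ¬ ℓ ∣ M)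
    (hA : A.LiesOverPrime ℓ) :
    Bases1.gaussDatumIgusa h hℓ hℓM hA = datum₁ (Bases1.hasRep_of_igusa h hℓ hℓM hA) := rfl

/-- **`StableHyp1 M A` from `IgusaDeg M`** (and `Deg1 M`) -/
theorem stableHyp1_of_igusa (h : IgusaDeg M) (hD : Deg1 M) {ℓ : ℕ} (hℓ : ℓ.Prime)
    (hℓM : ¬ ℓ ∣ M) (hA : A.LiesOverPrime ℓ) : StableHyp1 M A := by
  obtain ⟨n, u, bL, bk, -, hbk⟩ := Bases1.exists_basis_O_igusa h hℓ hℓM hA
  refine stableHyp1_of_basis hD (Bases1.hasRep_of_igusa h hℓ hℓM hA) (ι := Fin n) u ?_ ?_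
  · rw [Module.finrank_eq_card_basis bL]
  · have h2 : (fun i => (datum₁ (Bases1.hasRep_of_igusa h hℓ hℓM hA)).red (u i)) = ⇑bk :=
      funext fun i => (hbk i).symm
    rw [h2]
    exact bk.linearIndependent

variable (M)

/-- **(R0) = `Seams.DiamondRed1 M`** from the existence of the diamond automorphisms (B1), the
degree of the reduced curve (B2) and the degree of `X₁(M)` (B1). -/
theorem diamondRed1 (hDia : DiamondExists M) (hdeg : IgusaDeg M) (hD : Deg1 M) :
    Fermat.Agent.S48.B.Red.Seams.DiamondRed1 M :=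
  diamondRed1_of M hDia hD
    (fun _ hℓ hℓM _ hA => Fibre1.fibreHyp1_of hdeg hD hℓ hℓM hA)
    (fun _ hℓ hℓM _ hA => stableHyp1_of_igusa hdeg hD hℓ hℓM hA)

end Fermat.Agent.S48.B.Red.Diamond1.Final

end
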